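import Fermat.Agent.MUL.Lib.BadRed.Bridge.NormAt
import Fermat.Agent.MUL.R38.P.Final
import Fermat.Agent.MUL.E.Desc.Kp.Core

section MergeWrap_S36_Norm_VertW -- from S36/Norm/VertW.lean

set_option autoImplicit false
set_option linter.style.haveILetI false
set_option linter.unusedSectionVars false

/-!
# S36 (Carayol), block NORM-VERT, part 1: Atkin–Lehner intertwines `α` and `β`  (helper66)

`ℓ` prime, `ℓ ∣ N`.  `α, β : F_N → F_{Nℓ}` the two degeneracy maps (`heckeAlphaBar` = inclusion,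
`heckeBetaBar` = `x(q) ↦ x(q^ℓ)`).  With Atkin–Lehner data `D₁` at level `N = D₁.Q * D₁.R`
and `D₂` at level `N ℓ = D₂.Q * D₂.R`, `D₂.Q = D₁.Q * ℓ`, `D₂.R = D₁.R`
(for S36: `N = r M₀`, `D₁.Q = r`, `D₂.Q = r²`, `D₁.R = D₂.R = M₀`):

* `wAt_beta`        : `W₂ (β x) = α (w₁ x)`;
* `wAt_alpha`       : `W₂ (α x) = β (w₁ x)`;
* `finrank_alpha`   : `[F_{Nℓ} : α F_N] = ℓ`   (index of `Γ₀(Nℓ)` in `Γ₀(N)`, `ℓ ∣ N`);
* `finrank_beta`    : `[F_{Nℓ} : β F_N] = ℓ`;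
* `normAlong_beta_wAt` : `Norm_β (W₂ y) = w₁ (Norm_α y)`.
-/

noncomputable section

namespace Fermat.Agent.S36N

open ModularCurve AlgebraicCurve Fermat.Agent.F3 Fermat.Agent.F3G Fermat.Agent.GaussInt
  Fermat.Agent.AtkinLehner Fermat.Agent.Kronecker Fermat.Agent.BadRed Fermat.Agent.HeckeComm

local notation "Qb" => AlgebraicClosure ℚ

attribute [local instance 10000] SubalgebraClass.toAlgebra HahnSeries.powerSeriesAlgebra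

set_option synthInstance.maxHeartbeats 400000

variable {N ℓ : ℕ} [NeZero N] [NeZero ℓ]

/-- the expansion of `β (j_d)` is `j(q^{dℓ})`. -/
theorem coe_beta_jdBar (d : ℕ) [NeZero d] (hd : d ∣ N) (e : ℕ) [NeZero e] (he : e = d * ℓ) :
    ((heckeBetaBar Qb N ℓ (jdBar N d hd) : FBar (N * ℓ)) : LaurentSeries Qb) =
      qExpand Qb e (jqModC Qb) := by
  subst he
  rw [coe_heckeBetaBar, coe_jdBar, qExpand_qExpand]
  exact qExpand_congr (mul_comm ℓ d) _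

/-- **`W₂ ∘ β = α ∘ w₁`.** -/
theorem wAt_beta (D₁ D₂ : ALData) (hQ : D₂.Q = D₁.Q * ℓ) (hR : D₂.R = D₁.R)
    (hN : N = D₁.Q * D₁.R) (hNℓ : N * ℓ = D₂.Q * D₂.R) (x : FBar N) :
    wAt D₂ hNℓ (heckeBetaBar Qb N ℓ x) = heckeAlphaBar Qb N ℓ (wAt D₁ hN x) := by
  let Φ₁ : FBar N →+* FBar (N * ℓ) :=
    ((wAt D₂ hNℓ : FBar (N * ℓ) ≃ₐ[Qb] FBar (N * ℓ)) : FBar (N * ℓ) →+* FBar (N * ℓ)).comp
      (heckeBetaBar Qb N ℓ).toRingHom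
  let Φ₂ : FBar N →+* FBar (N * ℓ) :=
    (heckeAlphaBar Qb N ℓ).toRingHom.comp
      ((wAt D₁ hN : FBar N ≃ₐ[Qb] FBar N) : FBar N →+* FBar N)
  have key : Φ₁ = Φ₂ := by
    apply ringHom_ext_FBar
    · intro c
      show wAt D₂ hNℓ (heckeBetaBar Qb N ℓ (algebraMap Qb _ c)) =
        heckeAlphaBar Qb N ℓ (wAt D₁ hN (algebraMap Qb _ c))
      rw [AlgHom.commutes, AlgEquiv.commutes, AlgEquiv.commutes, AlgHom.commutes]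
    · intro d hdne hd
      show wAt D₂ hNℓ (heckeBetaBar Qb N ℓ (jdBar N d hd)) =
        heckeAlphaBar Qb N ℓ (wAt D₁ hN (jdBar N d hd))
      have hd' : d ∣ D₁.Q * D₁.R := hN ▸ hd
      obtain ⟨d₁, e₁, d₂, f₂, h1, h2, hdd⟩ := exists_factor D₁ hd'
      obtain ⟨p1, p2, p3, p4⟩ := factor_pos D₁ h1 h2
      have hℓpos : 0 < ℓ := Nat.pos_of_ne_zero (NeZero.ne ℓ)
      haveI : NeZero (d₁ * d₂) := ⟨(Nat.mul_pos p1 p3).ne'⟩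
      haveI : NeZero (e₁ * d₂) := ⟨(Nat.mul_pos p2 p3).ne'⟩
      haveI : NeZero (d₁ * ℓ * d₂) := ⟨(Nat.mul_pos (Nat.mul_pos p1 hℓpos) p3).ne'⟩
      apply Subtype.ext
      have hL := coe_wAt_of_coe_gen D₂ hNℓ (d₁ * ℓ) e₁ d₂ f₂
        (by rw [hQ, ← h1]; ring) (by rw [hR, h2])
        (heckeBetaBar Qb N ℓ (jdBar N d hd))
        (coe_beta_jdBar d hd (d₁ * ℓ * d₂) (by rw [hdd]; ring))
      have hR' := coe_wAt_of_coe_gen D₁ hN d₁ e₁ d₂ f₂ h1 h2 (jdBar N d hd)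
        (by rw [coe_jdBar]; exact qExpand_congr hdd _)
      rw [hL, coe_heckeAlphaBar, hR']
  exact congrArg (fun Φ : FBar N →+* FBar (N * ℓ) => Φ x) key

/-- **`W₂ ∘ α = β ∘ w₁`.** -/
theorem wAt_alpha (D₁ D₂ : ALData) (hQ : D₂.Q = D₁.Q * ℓ) (hR : D₂.R = D₁.R)
    (hN : N = D₁.Q * D₁.R) (hNℓ : N * ℓ = D₂.Q * D₂.R) (x : FBar N) :
    wAt D₂ hNℓ (heckeAlphaBar Qb N ℓ x) = heckeBetaBar Qb N ℓ (wAt D₁ hN x) := by
  have h := wAt_beta D₁ D₂ hQ hR hN hNℓ (wAt D₁ hN x)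
  rw [wAt_wAt] at h
  rw [← h, wAt_wAt]

/-- `[F_{Nℓ} : α F_N] = ℓ` for a prime `ℓ ∣ N`. -/
theorem finrank_alpha (hℓ : ℓ.Prime) (hℓN : ℓ ∣ N) :
    letI := algebraAlong (heckeAlphaBar Qb N ℓ)
    FiniteDimensional (FBar N) (FBar (N * ℓ)) ∧ Module.finrank (FBar N) (FBar (N * ℓ)) = ℓ := by
  obtain ⟨hfd, hrank⟩ := finrank_incl N (N * ℓ) (dvd_mul_right N ℓ)
  refine ⟨hfd, ?_⟩
  rw [dedekindPsi_mul_prime_eq hℓ (NeZero.ne N), psiFactor, if_pos hℓN, mul_comm] at hrank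
  exact Nat.eq_of_mul_eq_mul_left (dedekindPsi_pos' N) hrank

/-- `[F_{Nℓ} : β F_N] = ℓ` for a prime `ℓ ∣ N`. -/
theorem finrank_beta (hℓ : ℓ.Prime) (hℓN : ℓ ∣ N) (D₁ D₂ : ALData) (hQ : D₂.Q = D₁.Q * ℓ)
    (hR : D₂.R = D₁.R) (hN : N = D₁.Q * D₁.R) (hNℓ : N * ℓ = D₂.Q * D₂.R) :
    letI := algebraAlong (heckeBetaBar Qb N ℓ)
    FiniteDimensional (FBar N) (FBar (N * ℓ)) ∧ Module.finrank (FBar N) (FBar (N * ℓ)) = ℓ := by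
  obtain ⟨hfd, hrank⟩ := finrank_alpha (N := N) hℓ hℓN
  have hc : (@algebraMap (FBar N) (FBar (N * ℓ)) _ _ (algebraAlong (heckeAlphaBar Qb N ℓ))).comp
      ((wAt D₁ hN : FBar N ≃ₐ[Qb] FBar N) : FBar N ≃+* FBar N).toRingHom =
      ((wAt D₂ hNℓ : FBar (N * ℓ) ≃ₐ[Qb] FBar (N * ℓ)) : FBar (N * ℓ) ≃+* FBar (N * ℓ)).toRingHom.comp
        (@algebraMap (FBar N) (FBar (N * ℓ)) _ _ (algebraAlong (heckeBetaBar Qb N ℓ))) := by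
    refine RingHom.ext fun x => ?_
    exact (wAt_beta D₁ D₂ hQ hR hN hNℓ x).symm
  have hfr := @Algebra.finrank_eq_of_equiv_equiv (FBar N) (FBar (N * ℓ)) _ _
    (algebraAlong (heckeBetaBar Qb N ℓ)) (FBar N) (FBar (N * ℓ)) _ _
    (algebraAlong (heckeAlphaBar Qb N ℓ))
    ((wAt D₁ hN : FBar N ≃ₐ[Qb] FBar N) : FBar N ≃+* FBar N)
    ((wAt D₂ hNℓ : FBar (N * ℓ) ≃ₐ[Qb] FBar (N * ℓ)) : FBar (N * ℓ) ≃+* FBar (N * ℓ)) hc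
  letI := algebraAlong (heckeBetaBar Qb N ℓ)
  have hfin : Module.finrank (FBar N) (FBar (N * ℓ)) = ℓ := hfr.trans hrank
  exact ⟨Module.finite_of_finrank_pos (by rw [hfin]; exact hℓ.pos), hfin⟩

/-- **`Norm_β (W₂ y) = w₁ (Norm_α y)`.** -/
theorem normAlong_beta_wAt (D₁ D₂ : ALData) (hQ : D₂.Q = D₁.Q * ℓ)
    (hR : D₂.R = D₁.R) (hN : N = D₁.Q * D₁.R) (hNℓ : N * ℓ = D₂.Q * D₂.R) (y : FBar (N * ℓ)) :
    normAlong (heckeBetaBar Qb N ℓ) (wAt D₂ hNℓ y) =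
      wAt D₁ hN (normAlong (heckeAlphaBar Qb N ℓ) y) := by
  have hc : (@algebraMap (FBar N) (FBar (N * ℓ)) _ _ (algebraAlong (heckeBetaBar Qb N ℓ))).comp
      (((wAt D₁ hN : FBar N ≃ₐ[Qb] FBar N) : FBar N ≃+* FBar N) : FBar N →+* FBar N) =
      RingHom.comp
        (((wAt D₂ hNℓ : FBar (N * ℓ) ≃ₐ[Qb] FBar (N * ℓ)) : FBar (N * ℓ) ≃+* FBar (N * ℓ)) :
          FBar (N * ℓ) →+* FBar (N * ℓ))
        (@algebraMap (FBar N) (FBar (N * ℓ)) _ _ (algebraAlong (heckeAlphaBar Qb N ℓ))) := by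
    refine RingHom.ext fun x => ?_
    exact (wAt_alpha D₁ D₂ hQ hR hN hNℓ x).symm
  have h := @Algebra.norm_eq_of_equiv_equiv (FBar N) (FBar (N * ℓ)) (FBar N) (FBar (N * ℓ))
    _ _ _ _ (algebraAlong (heckeAlphaBar Qb N ℓ)) (algebraAlong (heckeBetaBar Qb N ℓ))
    ((wAt D₁ hN : FBar N ≃ₐ[Qb] FBar N) : FBar N ≃+* FBar N)
    ((wAt D₂ hNℓ : FBar (N * ℓ) ≃ₐ[Qb] FBar (N * ℓ)) : FBar (N * ℓ) ≃+* FBar (N * ℓ)) hc y
  have h2 : wAt D₁ hN (normAlong (heckeAlphaBar Qb N ℓ) y) =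
      normAlong (heckeBetaBar Qb N ℓ) (wAt D₂ hNℓ y) := by
    have h3 := congrArg (wAt D₁ hN) h
    rw [show ∀ z : FBar N,
      wAt D₁ hN ((((wAt D₁ hN : FBar N ≃ₐ[Qb] FBar N) : FBar N ≃+* FBar N)).symm z) = z from
        fun z => ((wAt D₁ hN : FBar N ≃ₐ[Qb] FBar N) : FBar N ≃+* FBar N).apply_symm_apply z] at h3
    exact h3
  exact h2.symm

end Fermat.Agent.S36N
end
end MergeWrap_S36_Norm_VertW
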