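import Fermat.Agent.MUL.S36.Norm.VertW
import Fermat.Agent.MUL.Lib.FFL.FB.PeuMono

section MergeWrap_S36_Norm_VertProd -- from S36/Norm/VertProd.lean

set_option autoImplicit false
set_option linter.style.haveILetI false
set_option linter.unusedSectionVars false

/-!
# S36 (Carayol), block NORM-VERT, part 2: the norm product formula along `β`, `ℓ ∣ N`  (helper66)

`ℓ` prime, `ℓ ∣ N`, `β : F_N → F_{Nℓ}`, `x(q) ↦ x(q^ℓ)`.  The fibre of `β` over `τ` is
`{(τ + b)/ℓ : b mod ℓ}`, so for EVERY `y ∈ F_{Nℓ}` and every primitive `ℓ`-th root of unity `ζ`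

    `(Norm_β y)(q^ℓ) = ∏_{b < ℓ} y(ζ^b q)`.

Proof: the `ℓ` ring homomorphisms `y ↦ y(ζ^b q)` from `F_{Nℓ}` to `ℚ̄((q))` agree with
`x ↦ x(q^ℓ)` on `β (F_N)`, are pairwise distinct (coefficient of `q⁻¹` of `j`), and
`[F_{Nℓ} : β F_N] = ℓ` (`finrank_beta`); the norm is the product over all embeddings.

* `norm_eq_prod_ringHom` : the abstract statement;
* `norm_beta_expansion`  : the formula above;
* `norm_alpha_expansion_wAt` : `(w₁ (Norm_α y))(q^ℓ) = ∏_{b < ℓ} (W₂ y)(ζ^b q)`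
  (the norm along `π₁` seen at the cusp `0`).
-/

noncomputable section

namespace Fermat.Agent.S36N

open ModularCurve AlgebraicCurve Fermat.Agent.F3 Fermat.Agent.F3G Fermat.Agent.GaussInt
  Fermat.Agent.AtkinLehner Fermat.Agent.Kronecker Fermat.Agent.BadRed Fermat.Agent.HeckeComm

local notation "Qb" => AlgebraicClosure ℚ

set_option synthInstance.maxHeartbeats 400000

/-- **The norm is the product over a complete list of embeddings** (ring homomorphism form):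
`τ i : F' → E` agree with `φ` on `α F`, are pairwise distinct, and `[F' : α F] ≤ #ι`. -/
theorem norm_eq_prod_ringHom {K F F' E ι : Type*} [Field K] [CharZero K] [Field F] [Field F']
    [Field E] [Algebra K F] [Algebra K F'] (α : F →ₐ[K] F')
    (hfd : letI := algebraAlong α; FiniteDimensional F F') [Fintype ι]
    (φ : F →+* E) (τ : ι → F' →+* E) (hτ : ∀ i x, τ i (α x) = φ x)
    (hinj : Function.Injective τ)
    (hcard : (letI := algebraAlong α; Module.finrank F F') ≤ Fintype.card ι) (x : F') :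
    φ (normAlong α x) = ∏ i, τ i x := by
  letI := algebraAlong α
  haveI : FiniteDimensional F F' := hfd
  haveI : CharZero F := charZero_of_injective_algebraMap (algebraMap K F).injective
  haveI : Algebra.IsSeparable F F' := inferInstance
  letI : Algebra F (AlgebraicClosure E) :=
    ((algebraMap E (AlgebraicClosure E)).comp φ).toAlgebra
  let σ : ι → (F' →ₐ[F] AlgebraicClosure E) := fun i =>
    { toRingHom := (algebraMap E (AlgebraicClosure E)).comp (τ i)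
      commutes' := fun x => by
        show algebraMap E (AlgebraicClosure E) (τ i (α x)) =
          algebraMap E (AlgebraicClosure E) (φ x)
        rw [hτ] }
  have hσinj : Function.Injective σ := by
    intro i j hij
    apply hinj
    refine RingHom.ext fun y => ?_
    have h := congrArg (fun s : F' →ₐ[F] AlgebraicClosure E => s y) hij
    exact (algebraMap E (AlgebraicClosure E)).injective h
  have h := norm_eq_prod_of_injective σ hσinj hcard x
  apply (algebraMap E (AlgebraicClosure E)).injective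
  rw [map_prod]
  exact h

variable {N ℓ : ℕ} [NeZero N] [NeZero ℓ]

/-- the embedding `y ↦ y(z q)` of `F_{Nℓ}` in `ℚ̄((q))`. -/
def scaleEmb (M : ℕ) (z : Qbˣ) : FBar M →+* LaurentSeries Qb :=
  (scaleL z).comp (algebraMap (FBar M) (LaurentSeries Qb))

theorem scaleEmb_apply (M : ℕ) (z : Qbˣ) (y : FBar M) :
    scaleEmb M z y = scaleL z (y : LaurentSeries Qb) := rfl

/-- the embedding `x ↦ x(q^ℓ)` of `F_N` in `ℚ̄((q))`. -/
def expandEmb (N ℓ : ℕ) [NeZero ℓ] : FBar N →+* LaurentSeries Qb :=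
  (qExpand Qb ℓ).comp (algebraMap (FBar N) (LaurentSeries Qb))

theorem expandEmb_apply (x : FBar N) :
    expandEmb N ℓ x = qExpand Qb ℓ (x : LaurentSeries Qb) := rfl

theorem scaleEmb_beta (z : Qbˣ) (hz : z ^ ℓ = 1) (x : FBar N) :
    scaleEmb (N * ℓ) z (heckeBetaBar Qb N ℓ x) = expandEmb N ℓ x := by
  rw [scaleEmb_apply, coe_heckeBetaBar, scaleL_qExpand, hz, scaleL_one, expandEmb_apply]

theorem scaleEmb_pow_injective (ζ : Qbˣ) (hζ : IsPrimitiveRoot ζ ℓ) :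
    Function.Injective (fun b : Fin ℓ => scaleEmb (N * ℓ) (ζ ^ (b : ℕ))) := by
  intro b b' h
  have h1 := congrArg (fun f : FBar (N * ℓ) →+* LaurentSeries Qb => f (Fermat.Agent.S24.jBar (N * ℓ))) h
  simp only [scaleEmb_apply] at h1
  have h2 : (qExpand Qb (N * ℓ) (scaleL (ζ ^ (b : ℕ))
        ((Fermat.Agent.S24.jBar (N * ℓ) : FBar (N * ℓ)) : LaurentSeries Qb))).coeff
        (-((N * ℓ : ℕ) : ℤ)) =
      (qExpand Qb (N * ℓ) (scaleL (ζ ^ (b' : ℕ))
        ((Fermat.Agent.S24.jBar (N * ℓ) : FBar (N * ℓ)) : LaurentSeries Qb))).coeff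
        (-((N * ℓ : ℕ) : ℤ)) := by
    rw [h1]
  rw [coeff_qExpand_scaleL_jBar, coeff_qExpand_scaleL_jBar] at h2
  have h3 : ζ ^ (b : ℕ) = ζ ^ (b' : ℕ) := inv_inj.mp (Units.ext h2)
  exact Fin.ext (hζ.pow_inj b.2 b'.2 h3)

/-- **The norm product formula along `β`**, `ℓ ∣ N`. -/
theorem norm_beta_expansion (hℓ : ℓ.Prime) (hℓN : ℓ ∣ N) (D₁ D₂ : ALData)
    (hQ : D₂.Q = D₁.Q * ℓ) (hR : D₂.R = D₁.R) (hN : N = D₁.Q * D₁.R)
    (hNℓ : N * ℓ = D₂.Q * D₂.R) (ζ : Qbˣ) (hζ : IsPrimitiveRoot ζ ℓ) (y : FBar (N * ℓ)) :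
    qExpand Qb ℓ ((normAlong (heckeBetaBar Qb N ℓ) y : FBar N) : LaurentSeries Qb) =
      ∏ b ∈ Finset.range ℓ, scaleL (ζ ^ b) (y : LaurentSeries Qb) := by
  obtain ⟨hfd, hrank⟩ := finrank_beta (N := N) hℓ hℓN D₁ D₂ hQ hR hN hNℓ
  have h := norm_eq_prod_ringHom (heckeBetaBar Qb N ℓ) hfd (expandEmb N ℓ)
    (fun b : Fin ℓ => scaleEmb (N * ℓ) (ζ ^ (b : ℕ)))
    (fun b x => scaleEmb_beta (ζ ^ (b : ℕ))
      (by rw [← pow_mul, mul_comm, pow_mul, hζ.pow_eq_one, one_pow]) x)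
    (scaleEmb_pow_injective ζ hζ)
    (by rw [hrank, Fintype.card_fin]) y
  rw [expandEmb_apply] at h
  rw [h]
  exact Fin.prod_univ_eq_prod_range (fun b => scaleL (ζ ^ b) (y : LaurentSeries Qb)) ℓ

/-- **The norm along `α` at the cusp `0`**:
`(w₁ (Norm_α y))(q^ℓ) = ∏_{b < ℓ} (W₂ y)(ζ^b q)`. -/
theorem norm_alpha_expansion_wAt (hℓ : ℓ.Prime) (hℓN : ℓ ∣ N) (D₁ D₂ : ALData)
    (hQ : D₂.Q = D₁.Q * ℓ) (hR : D₂.R = D₁.R) (hN : N = D₁.Q * D₁.R)
    (hNℓ : N * ℓ = D₂.Q * D₂.R) (ζ : Qbˣ) (hζ : IsPrimitiveRoot ζ ℓ) (y : FBar (N * ℓ)) :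
    qExpand Qb ℓ
        ((wAt D₁ hN (normAlong (heckeAlphaBar Qb N ℓ) y) : FBar N) : LaurentSeries Qb) =
      ∏ b ∈ Finset.range ℓ,
        scaleL (ζ ^ b) ((wAt D₂ hNℓ y : FBar (N * ℓ)) : LaurentSeries Qb) := by
  rw [← normAlong_beta_wAt D₁ D₂ hQ hR hN hNℓ y]
  exact norm_beta_expansion hℓ hℓN D₁ D₂ hQ hR hN hNℓ ζ hζ (wAt D₂ hNℓ y)

end Fermat.Agent.S36N
end
end MergeWrap_S36_Norm_VertProd
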